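import Fermat.Agent.DivJ.Final
import Fermat.Agent.MazD.Res
import Fermat.Agent.MazHS.LocDiv2

/-!
# Divisibility of `J_0(N)`: unconditional statements
-/

set_option autoImplicit false
set_option linter.unusedSectionVars false
set_option linter.style.haveILetI false

noncomputable section

namespace Fermat.Agent.DivJ

open ModularCurve

theorem divResStatement : DivResStatement := by
  intro N _ n hn
  refine ⟨6 * N * n, ?_, fun ℓ hℓ hd A hA => ?_⟩
  · exact Nat.mul_ne_zero (Nat.mul_ne_zero (by norm_num) (NeZero.ne N)) hn.ne_zero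
  · intro _ D hD
    have h1 : ¬ ℓ ∣ 6 := fun h => hd ((h.mul_right N).mul_right n)
    have h5 : 5 ≤ ℓ := by
      by_contra h
      have h2 : ℓ ≤ 4 := by omega
      have h3 := hℓ.two_le
      interval_cases ℓ
      · exact h1 (by norm_num)
      · exact h1 (by norm_num)
      · exact absurd hℓ (by norm_num)
    exact MazD.divRes hℓ h5 A hA N (fun h => hd ((h.mul_left 6).mul_right n))
      (fun h => hd (h.mul_left _)) D hD

/-- **`J_0(N)` is divisible** -/
theorem divisible (N : ℕ) [NeZero N] {n : ℕ} (hn : n ≠ 0) (x : JZero N) : ∃ y : JZero N, n • y = x :=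
  full divResStatement N n hn x

theorem divJ : Maz.DivJ := divJ_of divResStatement

theorem locDiv : Maz.LocDiv := MazHS.locDiv_of_divJ divJ

end Fermat.Agent.DivJ
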