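import Fermat.Agent.FrobDens.Fixed
import Fermat.Agent.GoodRed.Laurent
import Mathlib.RingTheory.Nullstellensatz

/-!
# Statements true at almost all places; almost integral Laurent series; transfer
-/

set_option autoImplicit false
set_option linter.style.haveILetI false

noncomputable section

namespace Fermat.Agent.DivJ

open ModularCurve IntermediateField

local notation "Qbar" => AlgebraicClosure ℚ

/-- statements true at almost all places of `Qbar` -/
def Alm (P : ℕ → ValuationSubring Qbar → Prop) : Prop :=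
  ∃ n₀ : ℕ, n₀ ≠ 0 ∧ ∀ ℓ : ℕ, ℓ.Prime → ¬ ℓ ∣ n₀ →
    ∀ A : ValuationSubring Qbar, A.LiesOverPrime ℓ → P ℓ A

theorem Alm.mono {P Q : ℕ → ValuationSubring Qbar → Prop} (h : Alm P)
    (h' : ∀ ℓ A, P ℓ A → Q ℓ A) : Alm Q := by
  obtain ⟨n, hn, h⟩ := h
  exact ⟨n, hn, fun ℓ hℓ hd A hA => h' ℓ A (h ℓ hℓ hd A hA)⟩

theorem Alm.and {P Q : ℕ → ValuationSubring Qbar → Prop} (h : Alm P) (h' : Alm Q) :
    Alm (fun ℓ A => P ℓ A ∧ Q ℓ A) := by
  obtain ⟨n, hn, h⟩ := h
  obtain ⟨n', hn', h'⟩ := h'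
  exact ⟨n * n', mul_ne_zero hn hn', fun ℓ hℓ hd A hA =>
    ⟨h ℓ hℓ (fun h0 => hd (h0.mul_right _)) A hA, h' ℓ hℓ (fun h0 => hd (h0.mul_left _)) A hA⟩⟩

theorem alm_of {P : ℕ → ValuationSubring Qbar → Prop}
    (h : ∀ ℓ : ℕ, ℓ.Prime → ∀ A : ValuationSubring Qbar, A.LiesOverPrime ℓ → P ℓ A) : Alm P :=
  ⟨1, one_ne_zero, fun ℓ hℓ _ A hA => h ℓ hℓ A hA⟩

theorem Alm.finset {ι : Type*} (s : Finset ι) {P : ι → ℕ → ValuationSubring Qbar → Prop}
    (h : ∀ i ∈ s, Alm (P i)) : Alm (fun ℓ A => ∀ i ∈ s, P i ℓ A) := by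
  classical
  induction s using Finset.induction_on with
  | empty => exact alm_of fun ℓ _ A _ i hi => absurd hi (Finset.notMem_empty i)
  | insert a s ha ih =>
    refine ((h a (Finset.mem_insert_self a s)).and
      (ih fun i hi => h i (Finset.mem_insert_of_mem hi))).mono fun ℓ A hP i hi => ?_
    rcases Finset.mem_insert.1 hi with rfl | hi
    · exact hP.1
    · exact hP.2 i hi

theorem Alm.all {ι : Type*} [Fintype ι] {P : ι → ℕ → ValuationSubring Qbar → Prop}
    (h : ∀ i, Alm (P i)) : Alm (fun ℓ A => ∀ i, P i ℓ A) :=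
  (Alm.finset Finset.univ fun i _ => h i).mono fun _ _ h i => h i (Finset.mem_univ i)

/-- almost all places lie over large primes -/
theorem alm_prime {n : ℕ} (hn : n ≠ 0) : Alm (fun ℓ A => ℓ.Prime ∧ ¬ ℓ ∣ n ∧ A.LiesOverPrime ℓ) :=
  ⟨n, hn, fun _ hℓ hd _ hA => ⟨hℓ, hd, hA⟩⟩

theorem alm_mem (x : Qbar) : Alm (fun _ A => x ∈ A) := by
  have halg : IsAlgebraic ℤ x := by
    haveI := Frob.isAlgebraic_Qbar
    exact (IsFractionRing.isAlgebraic_iff ℤ ℚ Qbar).mpr (Algebra.IsAlgebraic.isAlgebraic x)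
  obtain ⟨y, hy0, hy⟩ := halg.exists_integral_multiple
  refine ⟨y.natAbs, Int.natAbs_ne_zero.2 hy0, fun ℓ hℓ hd A hA => ?_⟩
  have hd' : ¬ (ℓ : ℤ) ∣ y := fun h => hd (Int.natCast_dvd.1 h)
  have h2 : A.valuation (y • x) ≤ 1 :=
    (A.valuation_le_one_iff _).mpr (Frob.mem_of_isIntegral A hy)
  rw [zsmul_eq_mul, map_mul, Frob.valuation_intCast_eq_one A hℓ hA hd', one_mul] at h2
  exact (A.valuation_le_one_iff _).1 h2

/-- almost integral Laurent series -/
def AI (x : LaurentSeries Qbar) : Prop := Alm (fun _ A => ∀ i, x.coeff i ∈ A)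

theorem exists_coeffMap {A : ValuationSubring Qbar} {x : LaurentSeries Qbar}
    (h : ∀ n, x.coeff n ∈ A) : ∃ f : LaurentSeries A, coeffMap A.subtype f = x := by
  refine ⟨⟨fun n => ⟨x.coeff n, h n⟩, ?_⟩, ?_⟩
  · refine x.isPWO_support.mono fun n hn => ?_
    rw [Function.mem_support] at hn
    rw [HahnSeries.mem_support]
    intro h0
    exact hn (Subtype.ext h0)
  · ext n
    rw [coeffMap_coeff]
    rfl

theorem AI.add {x y : LaurentSeries Qbar} (hx : AI x) (hy : AI y) : AI (x + y) :=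
  (Alm.and hx hy).mono fun _ _ h i => by
    rw [HahnSeries.coeff_add]
    exact add_mem (h.1 i) (h.2 i)

theorem AI.mul {x y : LaurentSeries Qbar} (hx : AI x) (hy : AI y) : AI (x * y) :=
  (Alm.and hx hy).mono fun _ A h i => by
    obtain ⟨f, rfl⟩ := exists_coeffMap h.1
    obtain ⟨g, rfl⟩ := exists_coeffMap h.2
    rw [← map_mul, coeffMap_coeff]
    exact ((f * g).coeff i).2

theorem AI.inv {x : LaurentSeries Qbar} (hx : AI x) : AI x⁻¹ := by
  rcases eq_or_ne x 0 with rfl | hx0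
  · rw [inv_zero]; exact hx
  have hlc : x.leadingCoeff ≠ 0 := HahnSeries.leadingCoeff_ne_zero.2 hx0
  refine ((Alm.and hx (alm_mem (x.leadingCoeff)⁻¹))).mono fun _ A h i => ?_
  obtain ⟨f, hf⟩ := exists_coeffMap h.1
  have hinj : Function.Injective (coeffMap A.subtype) := GoodRed.coeffMap_injective
    Subtype.val_injective
  have hf0 : f ≠ 0 := by
    rintro rfl
    rw [map_zero] at hf
    exact hx0 hf.symm
  have hord : f.order = x.order := by
    apply le_antisymm
    · apply HahnSeries.order_le_of_coeff_ne_zero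
      intro h0
      apply hlc
      rw [HahnSeries.leadingCoeff_eq, ← hf, coeffMap_coeff]
      rw [hf, h0]
      rfl
    · apply HahnSeries.order_le_of_coeff_ne_zero
      rw [← hf, coeffMap_coeff]
      intro h0
      have h1 : f.coeff f.order = 0 := Subtype.ext h0
      exact hf0 (HahnSeries.coeff_order_eq_zero.1 h1)
  have hlf : (f.leadingCoeff : Qbar) = x.leadingCoeff := by
    rw [HahnSeries.leadingCoeff_eq, HahnSeries.leadingCoeff_eq, hord, ← hf]
    rfl
  have hu : IsUnit f := by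
    rw [HahnSeries.isUnit_iff]
    refine isUnit_iff_exists_inv.2 ⟨⟨_, h.2⟩, Subtype.ext ?_⟩
    change (f.leadingCoeff : Qbar) * (x.leadingCoeff)⁻¹ = 1
    rw [hlf, mul_inv_cancel₀ hlc]
  obtain ⟨g, hg⟩ := hu.exists_right_inv
  have h1 : x⁻¹ = coeffMap A.subtype g := by
    apply inv_eq_of_mul_eq_one_right
    rw [← hf, ← map_mul, hg, map_one]
  rw [h1, coeffMap_coeff]
  exact (g.coeff i).2

/-- modular functions have almost integral expansions -/
theorem ai_mff (N : ℕ) {x : LaurentSeries Qbar} (hx : x ∈ modularFunctionFieldFullC Qbar N) :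
    AI x := by
  refine IntermediateField.adjoin_induction Qbar (p := fun x _ => AI x) ?_ ?_ ?_ ?_ ?_ hx
  · rintro x ⟨d, hd0, hd, rfl⟩
    refine alm_of fun ℓ _ A _ i => ?_
    rw [← coeffMap_jqModC (Int.castRingHom Qbar), ← coeffMap_qExpand, coeffMap_coeff]
    exact intCast_mem A _
  · intro c
    refine (alm_mem c).mono fun _ A hc i => ?_
    rw [algebraMap_laurentSeries_eq_single, HahnSeries.coeff_single]
    split_ifs
    · exact hc
    · exact zero_mem _
  · exact fun x y _ _ hx hy => hx.add hy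
  · exact fun x _ hx => hx.inv
  · exact fun x y _ _ hx hy => hx.mul hy

open MvPolynomial in
/-- a system of polynomial equations that can be solved modulo places over arbitrarily large
primes can be solved in `Qbar` -/
theorem ns' {σ : Type} [Finite σ] (S : Set (MvPolynomial σ Qbar))
    (h : ∀ n : ℕ, n ≠ 0 → ∃ (ℓ : ℕ) (A : ValuationSubring Qbar) (v : σ → A), ℓ.Prime ∧ ¬ ℓ ∣ n ∧
      A.LiesOverPrime ℓ ∧ ∀ f ∈ S, A.valuation (eval (fun i => (v i : Qbar)) f) < 1) :
    ∃ v : σ → Qbar, ∀ f ∈ S, eval v f = 0 := by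
  classical
  by_contra hcon
  push Not at hcon
  set I : Ideal (MvPolynomial σ Qbar) := Ideal.span S with hI
  have htop : I = ⊤ := by
    have h1 : zeroLocus Qbar I = ∅ := by
      rw [Set.eq_empty_iff_forall_notMem]
      intro v hv
      obtain ⟨f, hf, hf'⟩ := hcon v
      apply hf'
      have h2 := hv _ (Ideal.subset_span hf)
      rw [← h2]
      rfl
    have h3 := vanishingIdeal_zeroLocus_eq_radical (K := Qbar) I
    rw [h1, vanishingIdeal_empty] at h3
    exact Ideal.radical_eq_top.mp h3.symm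
  have h4 : (1 : MvPolynomial σ Qbar) ∈ Submodule.span (MvPolynomial σ Qbar) S := by
    change (1 : MvPolynomial σ Qbar) ∈ I
    rw [htop]; exact Submodule.mem_top
  obtain ⟨c, hc, hsum⟩ := (Submodule.mem_span_set.1 h4)
  -- the coefficients of the multipliers are almost integral
  obtain ⟨n₀, hn₀, hint⟩ := Alm.finset c.support (P := fun f _ A => ∀ m ∈ (c f).support,
    (c f).coeff m ∈ A) fun f _ => Alm.finset _ fun m _ => alm_mem _
  obtain ⟨ℓ, A, v, hℓ, hd, hA, hv⟩ := h n₀ hn₀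
  have h5 := hint ℓ hℓ hd A hA
  have h6 : A.valuation (eval (fun i => (v i : Qbar)) (1 : MvPolynomial σ Qbar)) < 1 := by
    rw [← hsum, Finsupp.sum, map_sum]
    have hmem : ∀ f ∈ c.support, A.valuation (eval (fun i => (v i : Qbar)) (c f • f)) < 1 := by
      intro f hf
      rw [smul_eq_mul, map_mul, map_mul]
      refine mul_lt_one_of_nonneg_of_lt_one_right ?_ zero_le (hv f (hc hf))
      rw [A.valuation_le_one_iff, MvPolynomial.eval_eq]
      refine sum_mem fun m hm => mul_mem (h5 f hf m hm) (prod_mem fun i _ => pow_mem (v i).2 _)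
    exact A.valuation.map_sum_lt one_ne_zero hmem
  rw [map_one, map_one] at h6
  exact lt_irrefl _ h6

end Fermat.Agent.DivJ
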