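import Fermat.Agent.DivJ.Cert
import Fermat.Agent.DivJ.Alm
import Fermat.Agent.PicFlat.InstMod

/-!
# Reduction of bases of Riemann-Roch spaces at almost all places
-/

set_option autoImplicit false
set_option linter.unusedSectionVars false
set_option linter.style.haveILetI false
set_option synthInstance.maxHeartbeats 400000

noncomputable section

namespace Fermat.Agent.DivJ

open AlgebraicCurve Fermat.Agent.Curves Module IntermediateField ModularCurve IsLocalRing
open Fermat.Agent.GoodRed Fermat.Agent.PicFlat
open Fermat.Agent.GenusX0 (je transcendental_je)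

local notation "Qbar" => AlgebraicClosure ℚ

/-- coefficientwise reduction -/
def CR (A : ValuationSubring Qbar) (x : LaurentSeries Qbar)
    (xb : LaurentSeries (ResidueField A)) : Prop :=
  ∃ y : LaurentSeries A, coeffMap A.subtype y = x ∧ coeffMap (residue A) y = xb

variable {A : ValuationSubring Qbar}

theorem CR.lr {x : LaurentSeries Qbar} {xb : LaurentSeries (ResidueField A)} (h : CR A x xb) :
    LR (residue A) x xb := by
  obtain ⟨y, rfl, rfl⟩ := h
  exact LR.of y

theorem coeff_algebraMap_mul {L : Type*} [Field L] (c : L) (x : LaurentSeries L) (n : ℤ) :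
    (algebraMap L (LaurentSeries L) c * x).coeff n = c * x.coeff n := by
  rw [algebraMap_laurentSeries_eq_single, HahnSeries.coeff_single_zero_mul]

theorem coe_sum_smul {L : Type*} [Field L] {E : IntermediateField L (LaurentSeries L)}
    {ι : Type*} (s : Finset ι) (c : ι → L) (b : ι → E) :
    ((∑ j ∈ s, c j • b j : E) : LaurentSeries L) =
      ∑ j ∈ s, algebraMap L (LaurentSeries L) (c j) * (b j : LaurentSeries L) := by
  change E.val (∑ j ∈ s, c j • b j) = _
  rw [map_sum]
  refine Finset.sum_congr rfl fun j _ => ?_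
  rw [Algebra.smul_def]
  rfl

/-- reductions of independent functions are independent at almost all places -/
theorem exists_basisRed (N : ℕ) [NeZero N] {r : ℕ} (b : Fin r → modularFunctionFieldFullC Qbar N)
    (hb : LinearIndependent Qbar b) :
    Alm (fun _ A => (N : ResidueField A) ≠ 0 →
      ∃ bb : Fin r → modularFunctionFieldFullC (ResidueField A) N,
        LinearIndependent (ResidueField A) bb ∧
        ∀ i, CR A (b i : LaurentSeries Qbar) (bb i : LaurentSeries (ResidueField A))) := by
  classical
  -- an invertible minor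
  obtain ⟨e, he⟩ := exists_rows (κ := Qbar) (ρ := ℤ)
    (fun n j => ((b j : modularFunctionFieldFullC Qbar N) : LaurentSeries Qbar).coeff n)
    (by
      intro y hy
      have h1 : ∑ j, y j • b j = 0 := by
        apply Subtype.ext
        ext n
        have h2 := hy n
        rw [coe_sum_smul, HahnSeries.coeff_sum]
        simp only [coeff_algebraMap_mul]
        change _ = 0
        rw [← h2]
        exact Finset.sum_congr rfl fun j _ => mul_comm _ _
      funext j
      exact Fintype.linearIndependent_iff.1 hb y h1 j)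
  set δ : Qbar := (Matrix.of fun i j => ((b j : modularFunctionFieldFullC Qbar N) :
    LaurentSeries Qbar).coeff (e i)).det with hδ
  refine ((Alm.all fun j => ai_mff N (b j).2).and (alm_mem δ⁻¹)).mono fun _ A h hN => ?_
  obtain ⟨h1, h2⟩ := h
  choose y hy using fun j => exists_coeffMap (h1 j)
  have hdet : (Matrix.of fun i j => (coeffMap (residue A) (y j)).coeff (e i)).det ≠ 0 := by
    intro h0
    have h3 : (Matrix.of fun i j => (coeffMap (residue A) (y j)).coeff (e i)) =
        (residue A).mapMatrix (Matrix.of fun i j => (y j).coeff (e i)) := by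
      ext i j; rfl
    rw [h3, ← RingHom.map_det, residue_eq_zero_iff] at h0
    have h4 : ((Matrix.of fun i j => (y j).coeff (e i)).det : Qbar) = δ := by
      have h5 := RingHom.map_det A.subtype (Matrix.of fun i j => (y j).coeff (e i))
      change A.subtype _ = δ
      rw [h5, hδ]
      congr 1
      ext i j
      change ((y j).coeff (e i) : Qbar) = _
      rw [Matrix.of_apply, ← hy j]
      rfl
    have h6 : IsUnit (Matrix.of fun i j => (y j).coeff (e i)).det := by
      refine isUnit_iff_exists_inv.2 ⟨⟨δ⁻¹, h2⟩, Subtype.ext ?_⟩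
      change ((Matrix.of fun i j => (y j).coeff (e i)).det : Qbar) * δ⁻¹ = 1
      rw [h4, mul_inv_cancel₀ he]
    exact h0 h6
  have hind : ∀ c : Fin r → ResidueField A,
      ∑ j, algebraMap (ResidueField A) (LaurentSeries (ResidueField A)) (c j) *
        coeffMap (residue A) (y j) = 0 → ∀ j, c j = 0 := by
    intro c hc
    by_contra hne
    push Not at hne
    obtain ⟨j, hj⟩ := hne
    apply hdet
    rw [← Matrix.exists_mulVec_eq_zero_iff]
    refine ⟨c, fun h0 => hj (congrFun h0 j), ?_⟩
    funext i
    rw [Matrix.mulVec, dotProduct, Pi.zero_apply]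
    have h3 := congrArg (fun z : LaurentSeries (ResidueField A) => z.coeff (e i)) hc
    simp only [HahnSeries.coeff_sum, coeff_algebraMap_mul, HahnSeries.coeff_zero] at h3
    rw [← h3]
    exact Finset.sum_congr rfl fun j _ => mul_comm _ _
  have hne0 : ∀ j, coeffMap (residue A) (y j) ≠ 0 := by
    intro j h0
    have h3 := hind (Pi.single j 1) (by
      refine Finset.sum_eq_zero fun i _ => ?_
      by_cases hij : i = j
      · subst hij; rw [h0, mul_zero]
      · rw [Pi.single_eq_of_ne hij, map_zero, zero_mul]) j
    rw [Pi.single_eq_same] at h3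
    exact one_ne_zero h3
  -- membership
  have hmem : ∀ j, coeffMap (residue A) (y j) ∈ modularFunctionFieldFullC (ResidueField A) N := by
    intro j
    have hb0 : b j ≠ 0 := hb.ne_zero j
    have hyb0 : coeffMap (residue A) (y j) ≠ 0 := hne0 j
    have hLR : LR (residue A) (b j : LaurentSeries Qbar) (coeffMap (residue A) (y j)) := by
      rw [← hy j]; exact LR.of (y j)
    obtain ⟨c, fb, hc, hfb, hcf⟩ := exists_scale (residue A) N residue_surjective hN rfl hb0
    have hcf' : LR (residue A) (algebraMap Qbar (LaurentSeries Qbar) c * (b j : LaurentSeries Qbar))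
        (fb : LaurentSeries (ResidueField A)) := hcf
    by_cases hcA : c ∈ A
    · have h3 := (LR.const (residue A) ⟨c, hcA⟩).mul hLR
      have h4 := hcf'.unique h3
      have hc0 : residue A ⟨c, hcA⟩ ≠ 0 := by
        intro h0
        rw [h0, map_zero, zero_mul] at h4
        exact hfb (Subtype.ext h4)
      have h5 : coeffMap (residue A) (y j) =
          algebraMap (ResidueField A) (LaurentSeries (ResidueField A)) (residue A ⟨c, hcA⟩)⁻¹ *
            (fb : LaurentSeries (ResidueField A)) := by
        rw [h4, ← mul_assoc, ← map_mul, inv_mul_cancel₀ hc0, map_one, one_mul]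
      rw [h5]
      exact mul_mem (IntermediateField.algebraMap_mem _ _) fb.2
    · exfalso
      have hcv : 1 < A.valuation c := by
        rw [← not_le, A.valuation_le_one_iff]; exact hcA
      have hci : A.valuation c⁻¹ < 1 := by
        rw [map_inv₀]
        exact inv_lt_one_of_one_lt₀ hcv
      have hcA' : c⁻¹ ∈ A := (A.valuation_le_one_iff _).1 hci.le
      have h3 := (LR.const (residue A) ⟨c⁻¹, hcA'⟩).mul hcf'
      have h4 : residue A ⟨c⁻¹, hcA'⟩ = 0 := by
        rw [residue_eq_zero_iff]
        exact (A.valuation_lt_one_iff _).2 hci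
      have h5 : algebraMap Qbar (LaurentSeries Qbar) ((⟨c⁻¹, hcA'⟩ : A) : Qbar) *
          (algebraMap Qbar (LaurentSeries Qbar) c * (b j : LaurentSeries Qbar)) =
          (b j : LaurentSeries Qbar) := by
        change algebraMap Qbar (LaurentSeries Qbar) c⁻¹ * _ = _
        rw [← mul_assoc, ← map_mul, inv_mul_cancel₀ hc, map_one, one_mul]
      rw [h4, map_zero, zero_mul, h5] at h3
      exact hyb0 (hLR.unique h3)
  refine ⟨fun j => ⟨_, hmem j⟩, ?_, fun j => ⟨y j, hy j, rfl⟩⟩
  rw [Fintype.linearIndependent_iff]
  intro c hc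
  apply hind
  have h3 := congrArg (fun z : modularFunctionFieldFullC (ResidueField A) N =>
    (z : LaurentSeries (ResidueField A))) hc
  rw [coe_sum_smul] at h3
  exact h3

/-- uniqueness of the genus -/
theorem RR.genus_unique {k F : Type*} [Field k] [Field F] [Algebra k F] [IsFunctionField k F]
    [IsAlgClosed k] {g c g' c' : ℤ} (h : RR k F g c) (h' : RR k F g' c') : g = g' := by
  obtain ⟨P, -⟩ := RedCurve.exists_place_notMem (k := k) (E := F) ∅ Set.finite_empty
  have hdeg : Divisor.degree ((max c c').toNat • Finsupp.single P 1 : Divisor k F) =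
      (max c c').toNat := by
    rw [map_nsmul, degree_single_one, nsmul_eq_mul, mul_one]
  have h0 := Int.self_le_toNat (max c c')
  have h1 := h.eq ((max c c').toNat • Finsupp.single P 1) (by rw [hdeg]; omega)
  have h2 := h'.eq ((max c c').toNat • Finsupp.single P 1) (by rw [hdeg]; omega)
  omega

theorem RR.genus_nonneg {k F : Type*} [Field k] [Field F] [Algebra k F] [IsFunctionField k F]
    [IsAlgClosed k] {g c : ℤ} (h : RR k F g c) : 0 ≤ g := by
  have h1 := h.le 0
  rw [map_zero] at h1
  have h2 := ell_zero_le (k := k) (F := F)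
  omega

/-- the data at a good place -/
theorem exists_place_data (N : ℕ) [NeZero N] [IsFunctionField Qbar (modularFunctionFieldFullC Qbar N)]
    {g c : ℤ} (hRR : RR Qbar (modularFunctionFieldFullC Qbar N) g c)
    {ℓ : ℕ} (hℓ : ℓ.Prime) (h5 : 5 ≤ ℓ) (hA : A.LiesOverPrime ℓ) (hN : ¬ ℓ ∣ N)
    [IsFunctionField (ResidueField A) (modularFunctionFieldFullC (ResidueField A) N)] :
    RR (ResidueField A) (modularFunctionFieldFullC (ResidueField A) N) g
      (g * finrank Qbar⟮je Qbar N⟯ (modularFunctionFieldFullC Qbar N) + g) ∧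
    ∃ δ : Divisor Qbar (modularFunctionFieldFullC Qbar N) →+
        Divisor (ResidueField A) (modularFunctionFieldFullC (ResidueField A) N),
      (∀ D, 0 ≤ D → 0 ≤ δ D) ∧ (∀ D, Divisor.degree (δ D) = Divisor.degree D) ∧
      ∀ (f : modularFunctionFieldFullC Qbar N) (fb : modularFunctionFieldFullC (ResidueField A) N),
        LR (residue A) (f : LaurentSeries Qbar) (fb : LaurentSeries (ResidueField A)) → fb ≠ 0 →
          δ (divisorOf f) = divisorOf fb := by
  have hNK : (N : Qbar) ≠ 0 := by exact_mod_cast NeZero.ne N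
  have hNκ : (N : ResidueField A) ≠ 0 := residue_ne_zero hℓ hA hN
  obtain ⟨hc1, hc2⟩ := exists_jGood hℓ hA N (fun h => by omega) (fun h => by omega) hNK hNκ
  obtain ⟨g', c', h1, h2⟩ := exists_RR_both hc1 hc2 (rankOne_Qbar hℓ hA)
  have hg : g = g' := RR.genus_unique hRR h1
  subst hg
  refine ⟨?_, (ofCharts hc1 hc2).red, fun D hD => RedCurve.red_nonneg _ hD,
    fun D => RedCurve.degree_red _ D, fun f fb hR hfb => ?_⟩
  · rw [hc1.finrank_eq]
    exact RR.uniform h2 hc1.trb (RR.genus_nonneg hRR)
  · exact RedCurve.red_div _ ((modGauss_R (residue A) N).2 hR) hfb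

/-- reductions of bases of Riemann-Roch spaces are bases -/
theorem span_basisRed (N : ℕ) [NeZero N] [IsFunctionField Qbar (modularFunctionFieldFullC Qbar N)]
    [IsFunctionField (ResidueField A) (modularFunctionFieldFullC (ResidueField A) N)]
    {g c : ℤ} (hRR : RR Qbar (modularFunctionFieldFullC Qbar N) g c)
    (hRRb : RR (ResidueField A) (modularFunctionFieldFullC (ResidueField A) N) g c)
    {δ : Divisor Qbar (modularFunctionFieldFullC Qbar N) →+
        Divisor (ResidueField A) (modularFunctionFieldFullC (ResidueField A) N)}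
    (hδ0 : ∀ D, 0 ≤ D → 0 ≤ δ D) (hδd : ∀ D, Divisor.degree (δ D) = Divisor.degree D)
    (hδ : ∀ (f : modularFunctionFieldFullC Qbar N)
      (fb : modularFunctionFieldFullC (ResidueField A) N),
        LR (residue A) (f : LaurentSeries Qbar) (fb : LaurentSeries (ResidueField A)) → fb ≠ 0 →
          δ (divisorOf f) = divisorOf fb)
    {D : Divisor Qbar (modularFunctionFieldFullC Qbar N)} (hD : c ≤ Divisor.degree D)
    {r : ℕ} (b : Fin r → modularFunctionFieldFullC Qbar N) (hr : r = ell D)
    (hb0 : ∀ i, b i ≠ 0) (hb : ∀ i, b i ∈ riemannRochSpace D)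
    {bb : Fin r → modularFunctionFieldFullC (ResidueField A) N}
    (hbb : LinearIndependent (ResidueField A) bb)
    (hR : ∀ i, LR (residue A) (b i : LaurentSeries Qbar)
      (bb i : LaurentSeries (ResidueField A))) :
    Submodule.span (ResidueField A) (Set.range bb) = riemannRochSpace (δ D) := by
  classical
  have hmem : ∀ i, bb i ∈ riemannRochSpace (δ D) := by
    intro i
    have hbb0 : bb i ≠ 0 := hbb.ne_zero i
    rw [mem_iff_div hbb0, ← hδ (b i) (bb i) (hR i) hbb0, ← map_add]
    exact hδ0 _ ((mem_iff_div (hb0 i)).1 (hb i))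
  have h1 := hRR.eq D hD
  have h2 := hRRb.eq (δ D) (by rw [hδd]; exact hD)
  rw [hδd] at h2
  have h3 : ell (δ D) = r := by omega
  refine Submodule.eq_of_le_of_finrank_eq (Submodule.span_le.2 ?_) ?_
  · rintro _ ⟨i, rfl⟩
    exact hmem i
  · rw [finrank_span_eq_card hbb, Fintype.card_fin]
    exact h3.symm

end Fermat.Agent.DivJ
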