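import Fermat.Agent.DivJ.RRU

/-!
# Certificates for divisibility of divisor classes
-/

set_option autoImplicit false
set_option linter.unusedSectionVars false

noncomputable section

namespace Fermat.Agent.DivJ

open AlgebraicCurve IntermediateField WithZero Fermat.Agent.Curves Fermat.Agent.GoodRed
open Fermat.Agent.PicFlat

variable {k F : Type*} [Field k] [Field F] [Algebra k F] [IsFunctionField k F] [IsAlgClosed k]

/-- certificates for divisibility by `n` of the class of `D₀` -/
structure IsCert (D₀ H : Divisor k F) (n q m : ℕ) {ι : Type*} (u : ι → F) {r : ℕ}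
    (s : F) (a : Fin r → F) (h : ι → Fin r → F) : Prop where
  s_mem : s ∈ riemannRochSpace ((n * q) • H - D₀)
  a_mem : ∀ j, a j ∈ riemannRochSpace (m • H)
  a_ind : LinearIndependent k a
  h_mem : ∀ i j, h i j ∈ riemannRochSpace ((n * m) • H)
  rel : ∀ i j, h i j * s = u i * a j ^ n

/-- certificates prove divisibility -/
theorem IsCert.sound {g c : ℤ} (hRR : RR k F g c) {D₀ H : Divisor k F}
    (hD₀ : Divisor.degree D₀ = 0) (hH : Divisor.degree H = 1) {n q m : ℕ}
    {ι : Type*} {u : ι → F}
    (hu : Submodule.span k (Set.range u) = riemannRochSpace ((n * q) • H - D₀))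
    (h1 : c + 1 ≤ n * q) (h2 : c < (m : ℤ) - q) {r : ℕ} (hr : (r : ℤ) = m - q + 1 - g)
    (hr0 : 0 < r)
    {s : F} {a : Fin r → F} {h : ι → Fin r → F} (hc : IsCert D₀ H n q m u s a h) :
    ∃ (E : Divisor k F) (f : F), f ≠ 0 ∧ D₀ = n • E + divisorOf f := by
  classical
  have ha0 : ∀ j, a j ≠ 0 := fun j => hc.a_ind.ne_zero j
  have hdeg : Divisor.degree ((n * q) • H - D₀) = n * q := by
    rw [map_sub, hD₀, map_nsmul, hH, sub_zero, nsmul_eq_mul, mul_one]
    push_cast
    rfl
  have humem : ∀ i, u i ∈ riemannRochSpace ((n * q) • H - D₀) := fun i => by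
    rw [← hu]; exact Submodule.subset_span ⟨i, rfl⟩
  -- base point freeness for `u`
  have hubpf : ∀ P : Place k F, ∃ i, u i ≠ 0 ∧ P.ord (u i) = -((n * q) • H - D₀) P := by
    intro P
    by_contra hcon
    push Not at hcon
    obtain ⟨f, hf, hf0, hfP⟩ := hRR.bpf (D := (n * q) • H - D₀) (by rw [hdeg]; exact h1) P
    have hle : Submodule.span k (Set.range u) ≤
        riemannRochSpace ((n * q) • H - D₀ - Finsupp.single P 1) := by
      rw [Submodule.span_le]
      rintro _ ⟨i, rfl⟩
      rcases eq_or_ne (u i) 0 with hi | hi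
      · rw [hi]; exact Submodule.zero_mem _
      rw [SetLike.mem_coe, mem_iff_of_ne hi]
      intro v
      have h3 := (mem_iff_of_ne hi).1 (humem i) v
      by_cases hv : v = P
      · subst hv
        have h4 := hcon i hi
        rw [Finsupp.sub_apply, Finsupp.single_eq_same]
        omega
      · rw [Finsupp.sub_apply, Finsupp.single_eq_of_ne hv]
        omega
    rw [hu] at hle
    have h5 := (mem_iff_of_ne hf0).1 (hle hf) P
    rw [Finsupp.sub_apply _ _ P, Finsupp.single_eq_same, hfP] at h5
    omega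
  obtain ⟨j₀⟩ : Nonempty (Fin r) := ⟨⟨0, hr0⟩⟩
  haveI : Nonempty (Fin r) := ⟨j₀⟩
  -- `s ≠ 0`
  obtain ⟨P₁, -⟩ := RedCurve.exists_place_notMem (k := k) (E := F) ∅ Set.finite_empty
  have hs0 : s ≠ 0 := by
    rintro rfl
    obtain ⟨i, hi, -⟩ := hubpf P₁
    have h3 := hc.rel i j₀
    rw [mul_zero] at h3
    exact mul_ne_zero hi (pow_ne_zero _ (ha0 j₀)) h3.symm
  -- the base divisor of the `a j`
  set E : Divisor k F := Finset.univ.inf' Finset.univ_nonempty
    (fun j : Fin r => divisorOf (a j)) + m • H with hE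
  have hinf : ∀ P : Place k F, (Finset.univ.inf' Finset.univ_nonempty
      (fun j : Fin r => divisorOf (k := k) (a j))) P =
      Finset.univ.inf' Finset.univ_nonempty (fun j : Fin r => P.ord (a j)) := by
    intro P
    exact Finset.apply_inf'_eq_inf'_comp Finset.univ_nonempty
      (fun D : Divisor k F => D P) (fun D D' => rfl)
  have hEle : ∀ j P, E P ≤ P.ord (a j) + m • H P := by
    intro j P
    rw [hE, Finsupp.add_apply, hinf, Finsupp.smul_apply]
    have := Finset.inf'_le (fun j : Fin r => P.ord (a j)) (Finset.mem_univ j)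
    omega
  have hEeq : ∀ P, ∃ j, E P = P.ord (a j) + m • H P := by
    intro P
    obtain ⟨j, -, hj⟩ := Finset.exists_mem_eq_inf' Finset.univ_nonempty
      (fun j : Fin r => P.ord (a j))
    exact ⟨j, by rw [hE, Finsupp.add_apply, hinf, hj, Finsupp.smul_apply]⟩
  have hE0 : 0 ≤ E := by
    intro P
    obtain ⟨j, hj⟩ := hEeq P
    have h3 := (mem_iff_of_ne (ha0 j)).1 (hc.a_mem j) P
    rw [Finsupp.smul_apply] at h3
    rw [Finsupp.zero_apply, hj]
    exact h3
  -- degree bound
  have hEdeg : Divisor.degree E ≤ q := by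
    have h3 : ∀ j, a j ∈ riemannRochSpace (m • H - E) := by
      intro j
      rw [mem_iff_of_ne (ha0 j)]
      intro P
      have := hEle j P
      rw [Finsupp.sub_apply, Finsupp.smul_apply]
      omega
    have h4 : LinearIndependent k (fun j => (⟨a j, h3 j⟩ : riemannRochSpace (m • H - E))) :=
      LinearIndependent.of_comp (riemannRochSpace (m • H - E)).subtype hc.a_ind
    have h5 := h4.fintype_card_le_finrank
    rw [Fintype.card_fin] at h5
    change r ≤ ell (m • H - E) at h5
    have hd : Divisor.degree (m • H - E) = m - Divisor.degree E := by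
      rw [map_sub, map_nsmul, hH, nsmul_eq_mul, mul_one]
    by_contra hcon
    push Not at hcon
    rcases le_or_gt c ((m : ℤ) - Divisor.degree E) with h6 | h6
    · have h7 := hRR.eq (m • H - E) (by rw [hd]; exact h6)
      rw [hd] at h7
      omega
    · -- enlarge
      obtain ⟨l, hl⟩ : ∃ l : ℕ, (m : ℤ) - Divisor.degree E + l = c :=
        ⟨(c - (m - Divisor.degree E)).toNat, by
          rw [Int.toNat_of_nonneg (by omega)]; ring⟩
      have h7 := hRR.eq (m • H - E + l • Finsupp.single P₁ 1) (by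
        rw [map_add, hd, map_nsmul, degree_single_one, nsmul_eq_mul, mul_one]; omega)
      rw [map_add, hd, map_nsmul, degree_single_one, nsmul_eq_mul, mul_one] at h7
      have h8 : ell (m • H - E) ≤ ell (m • H - E + l • Finsupp.single P₁ 1) := ell_mono (by
        intro v
        rw [Finsupp.add_apply]
        have : (0 : ℤ) ≤ (l • Finsupp.single P₁ (1 : ℤ) : Place k F →₀ ℤ) v := by
          rw [Finsupp.smul_apply]
          refine nsmul_nonneg ?_ _
          by_cases hv : v = P₁
          · subst hv; rw [Finsupp.single_eq_same]; norm_num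
          · rw [Finsupp.single_eq_of_ne hv]
        omega)
      omega
  -- the effective divisor `Γ`
  set Γ : Divisor k F := D₀ - (n * q) • H + n • E - divisorOf s with hΓ
  have hΓ0 : 0 ≤ Γ := by
    intro P
    obtain ⟨i, hi0, hi⟩ := hubpf P
    obtain ⟨j, hj⟩ := hEeq P
    have hij := hc.rel i j
    have hne : u i * a j ^ n ≠ 0 := mul_ne_zero hi0 (pow_ne_zero _ (ha0 j))
    have hh0 : h i j ≠ 0 := by
      rintro h0
      rw [h0, zero_mul] at hij
      exact hne hij.symm
    have h3 := congrArg P.ord hij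
    rw [P.ord_mul hh0 hs0, P.ord_mul hi0 (pow_ne_zero _ (ha0 j)), ord_pow, hi] at h3
    have h4 := (mem_iff_of_ne hh0).1 (hc.h_mem i j) P
    rw [Finsupp.smul_apply] at h4
    rw [Finsupp.sub_apply, Finsupp.smul_apply] at h3
    rw [hΓ, Finsupp.zero_apply, Finsupp.sub_apply, Finsupp.add_apply, Finsupp.sub_apply,
      Finsupp.smul_apply, Finsupp.smul_apply, hj, divisorOf_apply]
    simp only [nsmul_eq_mul] at h3 h4 ⊢
    push_cast at h3 h4 ⊢
    nlinarith
  have hΓd : Divisor.degree Γ = -(n * q) + n * Divisor.degree E := by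
    rw [hΓ, map_sub, map_add, map_sub, hD₀, map_nsmul, map_nsmul, hH, degree_divisorOf]
    simp only [nsmul_eq_mul]
    push_cast
    ring
  have hΓle : Divisor.degree Γ ≤ 0 := by
    rw [hΓd]
    have : (n : ℤ) * Divisor.degree E ≤ n * q := mul_le_mul_of_nonneg_left hEdeg (by positivity)
    omega
  have hΓz : Γ = 0 := by
    by_contra hne
    obtain ⟨v, hv⟩ : ∃ v, Γ v ≠ 0 := by
      by_contra hall
      push Not at hall
      exact hne (Finsupp.ext hall)
    have h3 : Finsupp.single v 1 ≤ Γ := by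
      intro w
      by_cases hw : w = v
      · subst hw
        rw [Finsupp.single_eq_same]
        have := hΓ0 w
        rw [Finsupp.zero_apply] at this
        omega
      · rw [Finsupp.single_eq_of_ne hw]; exact hΓ0 w
    have h4 := pos_of_nonneg_degree _ (sub_nonneg.2 h3)
    rw [map_sub, degree_single_one] at h4
    omega
  refine ⟨q • H - E, s, hs0, ?_⟩
  have h3 : D₀ = (n * q) • H - n • E + divisorOf s := by
    have : D₀ - ((n * q) • H - n • E + divisorOf s) = Γ := by rw [hΓ]; abel
    rw [hΓz] at this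
    exact sub_eq_zero.1 this
  rw [h3, smul_sub, mul_smul]

/-- existence of certificates -/
theorem IsCert.exists {g c : ℤ} (hRR : RR k F g c) {D₀ H : Divisor k F}
    (hD₀ : Divisor.degree D₀ = 0) (hH : Divisor.degree H = 1) {n q m : ℕ} (hn : n ≠ 0)
    {ι : Type*} {u : ι → F}
    (hu : ∀ i, u i ∈ riemannRochSpace ((n * q) • H - D₀))
    (h1 : g ≤ q) (h2 : c ≤ (m : ℤ) - q) {r : ℕ} (hr : (r : ℤ) = m - q + 1 - g)
    (hdiv : ∃ (E : Divisor k F) (f : F), f ≠ 0 ∧ D₀ = n • E + divisorOf f) :
    ∃ (s : F) (a : Fin r → F) (h : ι → Fin r → F), IsCert D₀ H n q m u s a h := by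
  classical
  obtain ⟨E, f, hf0, hE⟩ := hdiv
  have hEd : Divisor.degree E = 0 := by
    have h3 := congrArg Divisor.degree hE
    rw [hD₀, map_add, map_nsmul, degree_divisorOf, add_zero, nsmul_eq_mul] at h3
    rcases mul_eq_zero.1 h3.symm with h4 | h4
    · exact absurd (by exact_mod_cast h4) hn
    · exact h4
  have h3 := hRR.le (q • H - E)
  rw [map_sub, map_nsmul, hH, hEd, nsmul_eq_mul, mul_one, sub_zero] at h3
  obtain ⟨z, hz0, hz⟩ := exists_mem_of_finrank_pos (k := k) (D := q • H - E) (by
    change 0 < ell _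
    omega)
  set E' : Divisor k F := divisorOf z + (q • H - E) with hE'
  have hE'd : Divisor.degree E' = q := by
    rw [hE', map_add, degree_divisorOf, map_sub, map_nsmul, hH, hEd, nsmul_eq_mul]
    ring
  set s : F := f * z ^ n with hs
  have hs0 : s ≠ 0 := mul_ne_zero hf0 (pow_ne_zero _ hz0)
  have hsord : ∀ P : Place k F, P.ord s = D₀ P - n * (q * H P) + n * E' P := by
    intro P
    rw [hs, P.ord_mul hf0 (pow_ne_zero _ hz0), ord_pow, hE', hE]
    simp only [Finsupp.add_apply, Finsupp.sub_apply, Finsupp.smul_apply, divisorOf_apply,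
      nsmul_eq_mul]
    ring
  have hE'0 : ∀ P, 0 ≤ E' P := fun P => hz P
  -- the basis
  have h4 := hRR.eq (m • H - E') (by
    rw [map_sub, map_nsmul, hH, hE'd, nsmul_eq_mul, mul_one]; exact h2)
  rw [map_sub, map_nsmul, hH, hE'd, nsmul_eq_mul, mul_one, ← hr] at h4
  have h5 : Module.finrank k (riemannRochSpace (m • H - E')) = r := by exact_mod_cast h4
  let b := Module.finBasisOfFinrankEq k (riemannRochSpace (m • H - E')) h5
  have hbi : LinearIndependent k (fun j => ((b j : riemannRochSpace (m • H - E')) : F)) :=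
    b.linearIndependent.map' (Submodule.subtype _) (Submodule.ker_subtype _)
  have hb0 : ∀ j, ((b j : riemannRochSpace (m • H - E')) : F) ≠ 0 := fun j => hbi.ne_zero j
  refine ⟨s, fun j => (b j : F), fun i j => u i * (b j : F) ^ n / s, ?_, ?_, hbi, ?_, ?_⟩
  · rw [mem_iff_of_ne hs0]
    intro P
    rw [hsord, Finsupp.sub_apply, Finsupp.smul_apply, nsmul_eq_mul]
    push_cast
    have := mul_nonneg (Int.natCast_nonneg n) (hE'0 P)
    nlinarith
  · intro j
    exact riemannRochSpace_mono (sub_le_self _ (fun P => hE'0 P)) (b j).2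
  · intro i j
    rcases eq_or_ne (u i) 0 with hi | hi
    · simp only [hi, zero_mul, zero_div]
      exact Submodule.zero_mem _
    have hne : u i * (b j : F) ^ n ≠ 0 := mul_ne_zero hi (pow_ne_zero _ (hb0 j))
    rw [mem_iff_of_ne (div_ne_zero hne hs0)]
    intro P
    have h6 := (mem_iff_of_ne hi).1 (hu i) P
    have h7 := (mem_iff_of_ne (hb0 j)).1 (b j).2 P
    rw [div_eq_mul_inv, P.ord_mul hne (inv_ne_zero hs0), P.ord_mul hi (pow_ne_zero _ (hb0 j)),
      ord_pow, P.ord_inv, hsord]
    simp only [Finsupp.sub_apply, Finsupp.smul_apply, nsmul_eq_mul] at h6 h7 ⊢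
    push_cast at h6 h7 ⊢
    have h8 := mul_le_mul_of_nonneg_left h7 (Int.natCast_nonneg n)
    nlinarith
  · intro i j
    exact div_mul_cancel₀ _ hs0

end Fermat.Agent.DivJ
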