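import Fermat.Agent.DivJ.Main
import Fermat.Agent.Maz.Defs

/-!
# Divisibility of the points of `J_0(N)`
-/

set_option autoImplicit false
set_option linter.unusedSectionVars false
set_option linter.style.haveILetI false
set_option synthInstance.maxHeartbeats 400000

noncomputable section

namespace Fermat.Agent.DivJ

open AlgebraicCurve Fermat.Agent.Curves Module IntermediateField ModularCurve IsLocalRing
open Fermat.Agent.GoodRed Fermat.Agent.PicFlat

local notation "Qbar" => AlgebraicClosure ℚ

/-- divisibility of the degree zero classes of `X_0(N)` over the residue fields -/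
def DivResStatement : Prop := ∀ (N : ℕ) [NeZero N] (n : ℕ), n.Prime → Alm (fun _ A => ResDiv N n A)

theorem divisible_bar (h : DivResStatement) (N : ℕ) [NeZero N] {n : ℕ} (hn : n.Prime)
    {E : IntermediateField Qbar (LaurentSeries Qbar)} (hE : E = modularFunctionFieldFullC Qbar N)
    [IsFunctionField Qbar E] (D : Divisor Qbar E) (hD : Divisor.degree D = 0) :
    ∃ (B : Divisor Qbar E) (f : E), f ≠ 0 ∧ D = n • B + divisorOf f := by
  subst hE
  exact divisible_of_resDiv N hn.ne_zero (h N n hn) D hD

theorem full_prime (h : DivResStatement) (N : ℕ) [NeZero N] {p : ℕ} (hp : p.Prime) (x : JZero N) :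
    ∃ y : JZero N, p • y = x := by
  haveI : IsFunctionField Qbar (modularFunctionFieldBar N) :=
    isFunctionField_bar N
  obtain ⟨D, rfl⟩ := Pic0.mk_surjective x
  have hD0 : Divisor.degree (D : Divisor Qbar (modularFunctionFieldBar N)) = 0 :=
    Divisor.mem_degZero.1 D.2
  obtain ⟨B, f, hf, hB⟩ := divisible_bar h N hp (laurentBaseChange_eq Qbar N)
    (D : Divisor Qbar (modularFunctionFieldBar N)) hD0
  have hBd : Divisor.degree B = 0 := by
    have h3 := congrArg Divisor.degree hB
    rw [hD0, map_add, map_nsmul, degree_divisorOf, add_zero, nsmul_eq_mul] at h3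
    rcases mul_eq_zero.1 h3.symm with h4 | h4
    · exact absurd (by exact_mod_cast h4) hp.ne_zero
    · exact h4
  refine ⟨Pic0.mk ⟨B, Divisor.mem_degZero.2 hBd⟩, ?_⟩
  have h1 : p • Pic0.mk (K := Qbar) (F := modularFunctionFieldBar N)
      ⟨B, Divisor.mem_degZero.2 hBd⟩ = Pic0.mk (p • ⟨B, Divisor.mem_degZero.2 hBd⟩) := rfl
  rw [h1]
  refine QuotientAddGroup.eq.2 ?_
  rw [AddSubgroup.mem_addSubgroupOf]
  refine ⟨f, hf, fun v => ?_⟩
  change (-(p • B) + (D : Divisor Qbar (modularFunctionFieldBar N))) v = _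
  rw [hB, neg_add_cancel_left, divisorOf_apply]

/-- **divisibility of `J_0(N)`** -/
theorem full (h : DivResStatement) (N : ℕ) [NeZero N] (n : ℕ) (hn : n ≠ 0) :
    ∀ x : JZero N, ∃ y : JZero N, n • y = x := by
  induction n using Nat.recOnMul with
  | zero => exact absurd rfl hn
  | one => exact fun x => ⟨x, one_smul _ _⟩
  | prime p hp => exact full_prime h N hp
  | mul a b iha ihb =>
    intro x
    obtain ⟨y, hy⟩ := iha (left_ne_zero_of_mul hn) x
    obtain ⟨z, hz⟩ := ihb (right_ne_zero_of_mul hn) y
    exact ⟨z, by rw [mul_smul, hz, hy]⟩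

/-- the form used for Mazur's theorem -/
theorem divJ_of (h : DivResStatement) : Maz.DivJ := by
  intro N _ ℓ A K _ n hn P Q _
  exact full h N n (fun h0 => hn (h0 ▸ dvd_zero _)) _

end Fermat.Agent.DivJ
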