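import Fermat.Agent.DivJ.Trans
import Fermat.Agent.FrobDens.Main

/-!
# Divisibility of divisor classes on modular curves over `Qbar` from the residue fields
-/

set_option autoImplicit false
set_option linter.unusedSectionVars false
set_option linter.style.haveILetI false
set_option synthInstance.maxHeartbeats 400000

noncomputable section

namespace Fermat.Agent.DivJ

open AlgebraicCurve Fermat.Agent.Curves Module IntermediateField ModularCurve IsLocalRing
open Fermat.Agent.GoodRed Fermat.Agent.PicFlat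
open Fermat.Agent.GenusX0 (je transcendental_je)

local notation "Qbar" => AlgebraicClosure ℚ

/-- divisibility by `n` of the degree zero classes over the residue field -/
def ResDiv (N n : ℕ) (A : ValuationSubring Qbar) : Prop :=
  ∀ [IsFunctionField (ResidueField A) (modularFunctionFieldFullC (ResidueField A) N)]
    (D : Divisor (ResidueField A) (modularFunctionFieldFullC (ResidueField A) N)),
    Divisor.degree D = 0 →
      ∃ (E : Divisor (ResidueField A) (modularFunctionFieldFullC (ResidueField A) N))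
        (h : modularFunctionFieldFullC (ResidueField A) N), h ≠ 0 ∧ D = n • E + divisorOf h

theorem exists_prime_place (n : ℕ) (hn : n ≠ 0) : ∃ (ℓ : ℕ) (A : ValuationSubring Qbar),
    ℓ.Prime ∧ ¬ ℓ ∣ n ∧ A.LiesOverPrime ℓ := by
  obtain ⟨ℓ, hℓn, hℓ⟩ := Nat.exists_infinite_primes (n + 1)
  exact ⟨ℓ, FrobDens.plc ⟨ℓ, hℓ⟩, hℓ, fun h => by
    have := Nat.le_of_dvd (Nat.pos_of_ne_zero hn) h
    omega, FrobDens.plc_lies ⟨ℓ, hℓ⟩⟩

theorem finrank_eq_of_ell {k F : Type*} [Field k] [Field F] [Algebra k F] [IsFunctionField k F]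
    [IsAlgClosed k] (D : Divisor k F) : ∃ b : Fin (ell D) → F, LinearIndependent k b ∧
      (∀ i, b i ∈ riemannRochSpace D) ∧ Submodule.span k (Set.range b) = riemannRochSpace D := by
  let B := Module.finBasisOfFinrankEq k (riemannRochSpace D) (n := ell D) rfl
  refine ⟨fun i => (B i : F), B.linearIndependent.map' (Submodule.subtype _)
    (Submodule.ker_subtype _), fun i => (B i).2, ?_⟩
  have h := B.span_eq
  have h2 := congrArg (Submodule.map (Submodule.subtype (riemannRochSpace D))) h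
  rw [Submodule.map_span, Submodule.map_subtype_top] at h2
  refine Eq.trans ?_ h2
  congr 1
  ext x
  simp

/-- **transfer of divisibility** -/
theorem divisible_of_resDiv (N : ℕ) [NeZero N]
    [IsFunctionField Qbar (modularFunctionFieldFullC Qbar N)] {n : ℕ} (hn : n ≠ 0)
    (hdiv : Alm (fun _ A => ResDiv N n A))
    (D₀ : Divisor Qbar (modularFunctionFieldFullC Qbar N)) (hD₀ : Divisor.degree D₀ = 0) :
    ∃ (E : Divisor Qbar (modularFunctionFieldFullC Qbar N))
      (f : modularFunctionFieldFullC Qbar N), f ≠ 0 ∧ D₀ = n • E + divisorOf f := by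
  classical
  obtain ⟨g, c₀, hRR₀⟩ := exists_RR (k := Qbar) (F := modularFunctionFieldFullC Qbar N)
  have hg := RR.genus_nonneg hRR₀
  set c : ℤ := g * finrank Qbar⟮je Qbar N⟯ (modularFunctionFieldFullC Qbar N) + g with hc
  have hRR : RR Qbar (modularFunctionFieldFullC Qbar N) g c :=
    RR.uniform hRR₀ transcendental_je hg
  have hcg : g ≤ c := by
    rw [hc]
    have : 0 ≤ g * (finrank Qbar⟮je Qbar N⟯ (modularFunctionFieldFullC Qbar N) : ℤ) :=
      mul_nonneg hg (Int.natCast_nonneg _)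
    omega
  obtain ⟨P₀, -⟩ := RedCurve.exists_place_notMem (k := Qbar)
    (E := modularFunctionFieldFullC Qbar N) ∅ Set.finite_empty
  set H : Divisor Qbar (modularFunctionFieldFullC Qbar N) := Finsupp.single P₀ 1 with hH
  have hHd : Divisor.degree H = 1 := degree_single_one P₀ 1
  obtain ⟨q, hq⟩ : ∃ q : ℕ, (q : ℤ) = c + 1 := ⟨(c + 1).toNat, Int.toNat_of_nonneg (by omega)⟩
  obtain ⟨m, hm⟩ : ∃ m : ℕ, (m : ℤ) = 2 * (c + 1) :=
    ⟨(2 * (c + 1)).toNat, Int.toNat_of_nonneg (by omega)⟩
  obtain ⟨r, hr⟩ : ∃ r : ℕ, (r : ℤ) = m - q + 1 - g :=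
    ⟨(m - q + 1 - g).toNat, Int.toNat_of_nonneg (by omega)⟩
  have hr0 : 0 < r := by omega
  have hn1 : (1 : ℤ) ≤ n := by exact_mod_cast Nat.one_le_iff_ne_zero.2 hn
  have hnq : c + 1 ≤ (n : ℤ) * q := by rw [hq]; nlinarith
  have hnm : c + 1 ≤ (n : ℤ) * m := by rw [hm]; nlinarith
  -- bases
  obtain ⟨U, hUi, hUm, hUs⟩ := finrank_eq_of_ell ((n * q) • H - D₀)
  obtain ⟨Ua, hUai, hUam, hUas⟩ := finrank_eq_of_ell (m • H)
  obtain ⟨Uh, hUhi, hUhm, hUhs⟩ := finrank_eq_of_ell ((n * m) • H)
  have hd1 : Divisor.degree ((n * q) • H - D₀) = n * q := by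
    rw [map_sub, hD₀, map_nsmul, hHd, sub_zero, nsmul_eq_mul, mul_one]
    push_cast
    rfl
  have hd2 : Divisor.degree (m • H) = m := by
    rw [map_nsmul, hHd, nsmul_eq_mul, mul_one]
  have hd3 : Divisor.degree ((n * m) • H) = n * m := by
    rw [map_nsmul, hHd, nsmul_eq_mul, mul_one]
    push_cast
    rfl
  -- the system
  let UL : Fin (ell ((n * q) • H - D₀)) → LaurentSeries (MvPolynomial
      (Unk (ell ((n * q) • H - D₀)) r (ell (m • H)) (ell ((n * m) • H))) Qbar) :=
    fun i => coeffMap MvPolynomial.C (U i : LaurentSeries Qbar)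
  let UaL : Fin (ell (m • H)) → LaurentSeries (MvPolynomial
      (Unk (ell ((n * q) • H - D₀)) r (ell (m • H)) (ell ((n * m) • H))) Qbar) :=
    fun i => coeffMap MvPolynomial.C (Ua i : LaurentSeries Qbar)
  let UhL : Fin (ell ((n * m) • H)) → LaurentSeries (MvPolynomial
      (Unk (ell ((n * q) • H - D₀)) r (ell (m • H)) (ell ((n * m) • H))) Qbar) :=
    fun i => coeffMap MvPolynomial.C (Uh i : LaurentSeries Qbar)
  let S : Set (MvPolynomial
      (Unk (ell ((n * q) • H - D₀)) r (ell (m • H)) (ell ((n * m) • H))) Qbar) :=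
    {p | (∃ i j e, p = (relG n UL UaL UhL MvPolynomial.X i j).coeff e) ∨
      ∃ j j', p = indG MvPolynomial.X j j'}
  have hCC : ∀ (v : Unk (ell ((n * q) • H - D₀)) r (ell (m • H)) (ell ((n * m) • H)) → Qbar)
      (x : LaurentSeries Qbar), coeffMap (MvPolynomial.eval v)
        (coeffMap (MvPolynomial.C (σ := Unk (ell ((n * q) • H - D₀)) r (ell (m • H))
          (ell ((n * m) • H)))) x) = x := by
    intro v x
    ext e
    simp
  have hrel : ∀ (v : Unk (ell ((n * q) • H - D₀)) r (ell (m • H)) (ell ((n * m) • H)) → Qbar) i j e,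
      MvPolynomial.eval v ((relG n UL UaL UhL MvPolynomial.X i j).coeff e) =
        (relG n (fun i => (U i : LaurentSeries Qbar)) (fun i => (Ua i : LaurentSeries Qbar))
          (fun i => (Uh i : LaurentSeries Qbar)) v i j).coeff e := by
    intro v i j e
    rw [← coeffMap_coeff, coeffMap_relG]
    simp only [UL, UaL, UhL, hCC, MvPolynomial.eval_X]
  have hind : ∀ (v : Unk (ell ((n * q) • H - D₀)) r (ell (m • H)) (ell ((n * m) • H)) → Qbar)
      (j j' : Fin r),
      MvPolynomial.eval v (indG MvPolynomial.X j j') = indG v j j' := by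
    intro v j j'
    rw [map_indG]
    simp only [MvPolynomial.eval_X]
  obtain ⟨v, hv⟩ := ns' S (by
    intro n₁ hn₁
    -- almost all places are good
    have hbig : Alm (fun ℓ A => ResDiv N n A ∧ (ℓ.Prime ∧ ¬ ℓ ∣ (n₁ * N * 6) ∧ A.LiesOverPrime ℓ) ∧
        ((N : ResidueField A) ≠ 0 →
          ∃ bb : Fin (ell ((n * q) • H - D₀)) → modularFunctionFieldFullC (ResidueField A) N,
            LinearIndependent (ResidueField A) bb ∧
            ∀ i, CR A (U i : LaurentSeries Qbar) (bb i : LaurentSeries (ResidueField A))) ∧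
        ((N : ResidueField A) ≠ 0 →
          ∃ bb : Fin (ell (m • H)) → modularFunctionFieldFullC (ResidueField A) N,
            LinearIndependent (ResidueField A) bb ∧
            ∀ i, CR A (Ua i : LaurentSeries Qbar) (bb i : LaurentSeries (ResidueField A))) ∧
        ((N : ResidueField A) ≠ 0 →
          ∃ bb : Fin (ell ((n * m) • H)) → modularFunctionFieldFullC (ResidueField A) N,
            LinearIndependent (ResidueField A) bb ∧
            ∀ i, CR A (Uh i : LaurentSeries Qbar) (bb i : LaurentSeries (ResidueField A)))) :=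
      hdiv.and ((alm_prime (mul_ne_zero (mul_ne_zero hn₁ (NeZero.ne N)) (by norm_num))).and
        ((exists_basisRed N U hUi).and ((exists_basisRed N Ua hUai).and
          (exists_basisRed N Uh hUhi))))
    obtain ⟨n₂, hn₂, hgood⟩ := hbig
    obtain ⟨ℓ, A, hℓ, hℓn, hA⟩ := exists_prime_place n₂ hn₂
    obtain ⟨hres, ⟨-, hℓN, -⟩, hb1, hb2, hb3⟩ := hgood ℓ hℓ hℓn A hA
    have hℓn1 : ¬ ℓ ∣ n₁ := fun h => hℓN ((h.mul_right N).mul_right 6)
    have hℓN' : ¬ ℓ ∣ N := fun h => hℓN ((h.mul_left n₁).mul_right 6)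
    have hℓ6 : ¬ ℓ ∣ 6 := fun h => hℓN (h.mul_left _)
    have hℓ5 : 5 ≤ ℓ := by
      by_contra hcon
      have h2 := hℓ.two_le
      interval_cases ℓ
      · exact hℓ6 (by norm_num)
      · exact hℓ6 (by norm_num)
      · exact absurd hℓ (by norm_num)
    have hNκ : (N : ResidueField A) ≠ 0 := residue_ne_zero hℓ hA hℓN'
    haveI := isFunctionField_fullC (ResidueField A) N hNκ
    obtain ⟨hRRb, δ, hδ0, hδd, hδ⟩ := exists_place_data N hRR₀ hℓ hℓ5 hA hℓN'
    obtain ⟨Ub, hUbi, hUbR⟩ := hb1 hNκ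
    obtain ⟨Uab, hUabi, hUabR⟩ := hb2 hNκ
    obtain ⟨Uhb, hUhbi, hUhbR⟩ := hb3 hNκ
    have hs1 := span_basisRed N hRR hRRb hδ0 hδd hδ (D := (n * q) • H - D₀)
      (by rw [hd1]; omega) U rfl (fun i => hUi.ne_zero i) hUm hUbi (fun i => (hUbR i).lr)
    have hs2 := span_basisRed N hRR hRRb hδ0 hδd hδ (D := m • H)
      (by rw [hd2]; omega) Ua rfl (fun i => hUai.ne_zero i) hUam hUabi (fun i => (hUabR i).lr)
    have hs3 := span_basisRed N hRR hRRb hδ0 hδd hδ (D := (n * m) • H)
      (by rw [hd3]; omega) Uh rfl (fun i => hUhi.ne_zero i) hUhm hUhbi (fun i => (hUhbR i).lr)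
    rw [map_sub, map_nsmul] at hs1
    rw [map_nsmul] at hs2 hs3
    have hδ₀ : Divisor.degree (δ D₀) = 0 := by rw [hδd, hD₀]
    obtain ⟨s, a, h, hcert⟩ := IsCert.exists (r := r) hRRb (D₀ := δ D₀) (H := δ H) hδ₀
      (by rw [hδd, hHd]) (n := n) (q := q) (m := m) hn (u := Ub)
      (fun i => by rw [← hs1]; exact Submodule.subset_span ⟨i, rfl⟩) (by omega)
      (by omega) hr (hres _ hδ₀)
    obtain ⟨vb, hvb1, hvb2⟩ := sol_of_isCert hs1 hs2 hUabi hs3 hcert
    -- lift the solution
    choose v hv using fun e => residue_surjective (R := A) (vb e)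
    refine ⟨ℓ, A, v, hℓ, hℓn1, hA, ?_⟩
    choose y hy hyb using hUbR
    choose ya hya hyab using hUabR
    choose yh hyh hyhb using hUhbR
    have hvv : (fun e => residue A (v e)) = vb := funext hv
    rintro f (⟨i, j, e, rfl⟩ | ⟨j, j', rfl⟩)
    · rw [hrel]
      have h3 : relG n (fun i => (U i : LaurentSeries Qbar)) (fun i => (Ua i : LaurentSeries Qbar))
          (fun i => (Uh i : LaurentSeries Qbar)) (fun e => (v e : Qbar)) i j =
          coeffMap A.subtype (relG n y ya yh v i j) := by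
        rw [coeffMap_relG]
        simp only [hy, hya, hyh]
        rfl
      have h4 : coeffMap (residue A) (relG n y ya yh v i j) = 0 := by
        rw [coeffMap_relG, hvv]
        simp only [hyb, hyab, hyhb]
        exact hvb1 i j
      rw [h3, coeffMap_coeff]
      refine (A.valuation_lt_one_iff _).1 ?_
      rw [← residue_eq_zero_iff, ← coeffMap_coeff, h4]
      rfl
    · rw [hind]
      have h3 : indG (fun e => (v e : Qbar)) j j' = A.subtype (indG v j j') := by
        rw [map_indG]; rfl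
      rw [h3]
      refine (A.valuation_lt_one_iff _).1 ?_
      rw [← residue_eq_zero_iff, map_indG, hvv]
      exact hvb2 j j')
  obtain ⟨s, a, h, hcert⟩ := isCert_of_sol (D₀ := D₀) (H := H) (n := n) (q := q) (m := m)
    hUm hUam hUai hUhm v (fun i j => by
      ext e
      rw [← hrel]
      exact hv _ (Or.inl ⟨i, j, e, rfl⟩)) (fun j j' => by
      rw [← hind]
      exact hv _ (Or.inr ⟨j, j', rfl⟩))
  exact hcert.sound hRR hD₀ hHd hUs hnq (by omega) hr hr0

end Fermat.Agent.DivJ
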