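import Fermat.Agent.PicFlat.Spec

/-!
# Riemann-Roch in degrees bounded in terms of the genus and the degree of a pencil
-/

set_option autoImplicit false
set_option linter.unusedSectionVars false

noncomputable section

namespace Fermat.Agent.DivJ

open AlgebraicCurve IntermediateField WithZero Fermat.Agent.Curves Fermat.Agent.GoodRed
open Fermat.Agent.PicFlat

variable {k F : Type*} [Field k] [Field F] [Algebra k F] [IsFunctionField k F] [IsAlgClosed k]

/-- the pencil inequality -/
theorem pencil (t : F) (ht0 : t ≠ 0) (D : Divisor k F) :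
    2 * ell D ≤ ell (D + poleDivisor (k := k) t) + ell (D - poleDivisor (k := k) t) := by
  classical
  set B := poleDivisor (k := k) t with hB
  have hBa : ∀ v : Place k F, B v = max 0 (-v.ord t) := fun v => rfl
  have hm1 : ∀ f ∈ riemannRochSpace D, f ∈ riemannRochSpace (D + B) := fun f hf =>
    riemannRochSpace_mono (by
      intro v
      rw [Finsupp.add_apply, hBa]
      have := le_max_left 0 (-v.ord t)
      omega) hf
  have hm2 : ∀ f ∈ riemannRochSpace D, t * f ∈ riemannRochSpace (D + B) := by
    intro f hf
    rcases eq_or_ne f 0 with rfl | hf0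
    · rw [mul_zero]; exact Submodule.zero_mem _
    rw [mem_iff_of_ne (mul_ne_zero ht0 hf0)]
    intro v
    have h1 := (mem_iff_of_ne hf0).1 hf v
    rw [v.ord_mul ht0 hf0, Finsupp.add_apply, hBa]
    have := le_max_right 0 (-v.ord t)
    omega
  -- the map
  let L : (riemannRochSpace D × riemannRochSpace D) →ₗ[k] riemannRochSpace (D + B) :=
    { toFun := fun p => ⟨p.1 + t * p.2, Submodule.add_mem _ (hm1 _ p.1.2) (hm2 _ p.2.2)⟩
      map_add' := fun p q => Subtype.ext (by
        change ((p.1 + q.1 : riemannRochSpace D) : F) + t * ((p.2 + q.2 : riemannRochSpace D) : F)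
          = (p.1 + t * p.2) + (q.1 + t * q.2)
        push_cast
        ring)
      map_smul' := fun c p => Subtype.ext (by
        change ((c • p.1 : riemannRochSpace D) : F) + t * ((c • p.2 : riemannRochSpace D) : F)
          = c • (((p.1 : F) + t * p.2))
        push_cast
        rw [smul_add, mul_smul_comm]) }
  have hL : ∀ p, ((L p : riemannRochSpace (D + B)) : F) = p.1 + t * p.2 := fun p => rfl
  let M : LinearMap.ker L →ₗ[k] riemannRochSpace (D - B) :=
    { toFun := fun p => ⟨(p.1.2 : F), by
        have hp : (p.1.1 : F) + t * (p.1.2 : F) = 0 := by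
          have h1 := congrArg Subtype.val (LinearMap.mem_ker.1 p.2)
          exact h1
        rcases eq_or_ne (p.1.2 : F) 0 with h0 | h0
        · rw [h0]; exact Submodule.zero_mem _
        have hx : (p.1.1 : F) = -(t * (p.1.2 : F)) := eq_neg_of_add_eq_zero_left hp
        have hx0 : (p.1.1 : F) ≠ 0 := by
          rw [hx]; exact neg_ne_zero.2 (mul_ne_zero ht0 h0)
        rw [mem_iff_of_ne h0]
        intro v
        have h1 := (mem_iff_of_ne hx0).1 p.1.1.2 v
        have h2 := (mem_iff_of_ne h0).1 p.1.2.2 v
        have h3 : v.ord (p.1.1 : F) = v.ord t + v.ord (p.1.2 : F) := by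
          rw [hx, ord_neg, v.ord_mul ht0 h0]
        rw [Finsupp.sub_apply, hBa]
        rcases max_choice 0 (-v.ord t) with h4 | h4 <;> rw [h4] <;> omega⟩
      map_add' := fun p q => rfl
      map_smul' := fun c p => rfl }
  have hM : Function.Injective M := by
    intro p q h
    have h1 : ((p.1.2 : riemannRochSpace D) : F) = (q.1.2 : F) :=
      congrArg (fun z : riemannRochSpace (D - B) => (z : F)) h
    have hp : (p.1.1 : F) + t * (p.1.2 : F) = 0 := congrArg Subtype.val (LinearMap.mem_ker.1 p.2)
    have hq : (q.1.1 : F) + t * (q.1.2 : F) = 0 := congrArg Subtype.val (LinearMap.mem_ker.1 q.2)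
    apply Subtype.ext
    apply Prod.ext
    · apply Subtype.ext
      rw [eq_neg_of_add_eq_zero_left hp, eq_neg_of_add_eq_zero_left hq, h1]
    · exact Subtype.ext h1
  have h1 := LinearMap.finrank_range_add_finrank_ker L
  rw [Module.finrank_prod] at h1
  have h2 : Module.finrank k (LinearMap.range L) ≤ ell (D + B) := Submodule.finrank_le _
  have h3 : Module.finrank k (LinearMap.ker L) ≤ ell (D - B) :=
    LinearMap.finrank_le_finrank_of_injective hM
  change _ = ell D + ell D at h1
  omega

theorem ell_zero_le : ell (0 : Divisor k F) ≤ 1 := by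
  classical
  obtain ⟨P, -⟩ := RedCurve.exists_place_notMem (k := k) (E := F) ∅ Set.finite_empty
  have h1 := ell_add_le (-Finsupp.single P 1 : Divisor k F) (Finsupp.single P 1) (by
    rw [Finsupp.single_nonneg]; norm_num)
  rw [neg_add_cancel, degree_single_one] at h1
  have h2 : ell (-Finsupp.single P 1 : Divisor k F) = 0 := ell_eq_zero (by
    rw [map_neg, degree_single_one]; norm_num)
  omega

/-- **uniform Riemann-Roch** -/
theorem RR.uniform {g c : ℤ} (h : RR k F g c) {t : F} (ht : Transcendental k t) (hg : 0 ≤ g) :
    RR k F g (g * Module.finrank k⟮t⟯ F + g) := by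
  classical
  have ht0 : t ≠ 0 := by rintro rfl; exact ht isAlgebraic_zero
  set B := poleDivisor (k := k) t with hB
  have hBd : Divisor.degree B = Module.finrank k⟮t⟯ F := degree_poleDivisor ht
  haveI := finiteDimensional_adjoin_simple (k := k) (F := F) ht
  have hd1 : (1 : ℤ) ≤ Module.finrank k⟮t⟯ F := by
    exact_mod_cast Nat.succ_le_of_lt (Module.finrank_pos (R := k⟮t⟯) (M := F))
  set d : ℤ := ((Module.finrank k⟮t⟯ F : ℕ) : ℤ) with hd
  -- the defects
  let i : ℤ → ℤ := fun m => ell (m • B) - (m * d + 1 - g)
  have hideg : ∀ m : ℤ, Divisor.degree (m • B) = m * d := by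
    intro m; rw [map_zsmul, hBd, smul_eq_mul]
  have hi0 : ∀ m, 0 ≤ i m := by
    intro m
    have := h.le (m • B)
    rw [hideg] at this
    simp only [i]
    omega
  have hconv : ∀ m, 2 * i m ≤ i (m + 1) + i (m - 1) := by
    intro m
    have h1 := pencil (k := k) t ht0 (m • B)
    rw [← hB, show m • B + B = (m + 1) • B by rw [add_smul, one_smul],
      show m • B - B = (m - 1) • B by rw [sub_smul, one_smul]] at h1
    simp only [i]
    have h2 : (2 * ell (m • B) : ℤ) ≤ ell ((m + 1) • B) + ell ((m - 1) • B) := by exact_mod_cast h1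
    nlinarith
  have hiz : ∀ m : ℤ, c ≤ m * d → i m = 0 := by
    intro m hm
    have := h.eq (m • B) (by rw [hideg]; exact hm)
    rw [hideg] at this
    simp only [i]
    omega
  have hi00 : i 0 ≤ g := by
    simp only [i, zero_smul, zero_mul]
    have := ell_zero_le (k := k) (F := F)
    omega
  -- if `i m ≤ i (m+1)` then `i m = 0`
  have hstop : ∀ m : ℤ, i m ≤ i (m + 1) → i m = 0 := by
    intro m hm
    have hind : ∀ j : ℕ, i (m + j) ≤ i (m + j + 1) ∧ i m ≤ i (m + j) := by
      intro j
      induction j with
      | zero => simpa using hm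
      | succ j ih =>
        have h1 := hconv (m + j + 1)
        rw [show m + (j : ℤ) + 1 - 1 = m + j by ring] at h1
        push_cast
        rw [show m + ((j : ℤ) + 1) = m + j + 1 by ring]
        constructor
        · omega
        · omega
    have h1 := (hind (c - m * d).toNat).2
    have h2 := hiz (m + (c - m * d).toNat) (by
      have h3 := Int.self_le_toNat (c - m * d)
      have h4 : (0 : ℤ) ≤ (c - m * d).toNat := Int.natCast_nonneg _
      nlinarith)
    have h3 := hi0 m
    omega
  have hdec : ∀ j : ℕ, i j ≤ max 0 (g - j) := by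
    intro j
    induction j with
    | zero => simpa using Or.inr hi00
    | succ j ih =>
      by_cases h1 : i j ≤ i (j + 1)
      · have h2 := hstop j h1
        -- then `i (j+1) ≤ 0`
        have h3 : i (j + 1) = 0 := by
          by_contra hne
          have h4 := hi0 (j + 1)
          have h5 : i (j + 1) ≤ i (j + 1 + 1) := by
            have := hconv (j + 1)
            rw [show (j : ℤ) + 1 - 1 = j by ring] at this
            omega
          exact hne (hstop (j + 1) h5)
        push_cast
        rw [h3]
        exact le_max_left _ _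
      · push_cast
        push Not at h1
        rcases le_total (g - j) 0 with h2 | h2
        · rw [max_eq_left h2] at ih
          have := hi0 (j + 1)
          omega
        · rw [max_eq_right h2] at ih
          have := le_max_right 0 (g - (j + 1))
          omega
  have hig : i g = 0 := by
    have h1 := hdec g.toNat
    rw [Int.toNat_of_nonneg hg, sub_self, max_self] at h1
    exact le_antisymm h1 (hi0 g)
  have hellg : (ell (g • B) : ℤ) = g * d + 1 - g := by
    simp only [i] at hig
    omega
  refine ⟨h.le, fun D hD => ?_⟩
  have h1 := h.le (D - g • B)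
  rw [map_sub, hideg] at h1
  have h2 : 0 < ell (D - g • B) := by omega
  obtain ⟨f, hf0, hf⟩ := exists_mem_of_finrank_pos h2
  -- `E = div f + D - gB ≥ 0`
  set E : Divisor k F := divisorOf f + (D - g • B) with hE
  have h3 := ell_add_le (g • B) E hf
  rw [show g • B + E = D + divisorOf f by rw [hE]; abel, ell_add_divisorOf D hf0] at h3
  have h4 : Divisor.degree E = Divisor.degree D - g * d := by
    rw [hE, map_add, degree_divisorOf, map_sub, hideg]; ring
  have h5 := h.le D
  omega

end Fermat.Agent.DivJ
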