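import Fermat.Agent.DivJ.Basis

/-!
# Transfer of divisibility from the residue fields
-/

set_option autoImplicit false
set_option linter.unusedSectionVars false
set_option linter.style.haveILetI false
set_option synthInstance.maxHeartbeats 400000

noncomputable section

namespace Fermat.Agent.DivJ

open AlgebraicCurve Fermat.Agent.Curves Module IntermediateField ModularCurve IsLocalRing
open Fermat.Agent.GoodRed Fermat.Agent.PicFlat
open Fermat.Agent.GenusX0 (je transcendental_je)

local notation "Qbar" => AlgebraicClosure ℚ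

section Gen

variable (ru r ra rh : ℕ)

/-- the unknowns -/
abbrev Unk : Type := Fin ru ⊕ ((Fin r × Fin ra) ⊕ (((Fin ru × Fin r) × Fin rh) ⊕ (Fin ra × Fin r)))

variable {ru r ra rh} {R S : Type*} [CommRing R] [CommRing S]

def ux (i : Fin ru) : Unk ru r ra rh := .inl i
def uy (j : Fin r) (l : Fin ra) : Unk ru r ra rh := .inr (.inl (j, l))
def uw (i : Fin ru) (j : Fin r) (l : Fin rh) : Unk ru r ra rh := .inr (.inr (.inl ((i, j), l)))
def uz (l : Fin ra) (j : Fin r) : Unk ru r ra rh := .inr (.inr (.inr (l, j)))

/-- generic `s` -/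
def sG (U : Fin ru → LaurentSeries R) (v : Unk ru r ra rh → R) : LaurentSeries R :=
  ∑ i, HahnSeries.C (v (ux i)) * U i

/-- generic `a j` -/
def aG (Ua : Fin ra → LaurentSeries R) (v : Unk ru r ra rh → R) (j : Fin r) : LaurentSeries R :=
  ∑ l, HahnSeries.C (v (uy j l)) * Ua l

/-- generic `h i j` -/
def hG (Uh : Fin rh → LaurentSeries R) (v : Unk ru r ra rh → R) (i : Fin ru) (j : Fin r) :
    LaurentSeries R :=
  ∑ l, HahnSeries.C (v (uw i j l)) * Uh l

/-- generic relation -/
def relG (n : ℕ) (U : Fin ru → LaurentSeries R) (Ua : Fin ra → LaurentSeries R)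
    (Uh : Fin rh → LaurentSeries R) (v : Unk ru r ra rh → R) (i : Fin ru) (j : Fin r) :
    LaurentSeries R :=
  hG Uh v i j * sG U v - U i * aG Ua v j ^ n

/-- generic independence relation -/
def indG (v : Unk ru r ra rh → R) (j j' : Fin r) : R :=
  (∑ l : Fin ra, v (uy j l) * v (uz l j')) - if j = j' then 1 else 0

theorem coeffMap_HC (f : R →+* S) (x : R) :
    coeffMap f (HahnSeries.C x) = HahnSeries.C (f x) := coeffMap_single f 0 x

theorem coeffMap_relG (f : R →+* S) (n : ℕ) (U : Fin ru → LaurentSeries R)
    (Ua : Fin ra → LaurentSeries R)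
    (Uh : Fin rh → LaurentSeries R) (v : Unk ru r ra rh → R) (i : Fin ru) (j : Fin r) :
    coeffMap f (relG n U Ua Uh v i j) =
      relG n (fun i => coeffMap f (U i)) (fun i => coeffMap f (Ua i))
        (fun i => coeffMap f (Uh i)) (fun e => f (v e)) i j := by
  simp only [relG, hG, sG, aG, map_sub, map_mul, map_sum, map_pow, coeffMap_HC]

theorem map_indG (f : R →+* S) (v : Unk ru r ra rh → R) (j j' : Fin r) :
    f (indG v j j') = indG (fun e => f (v e)) j j' := by
  simp only [indG, map_sub, map_mul, map_sum]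
  split_ifs <;> simp

end Gen

section Cert

variable {k : Type} [Field k] {E : IntermediateField k (LaurentSeries k)}

theorem coe_sum_C {ι : Type*} [Fintype ι] (c : ι → k) (b : ι → E) :
    ((∑ j, c j • b j : E) : LaurentSeries k) =
      ∑ j, HahnSeries.C (c j) * (b j : LaurentSeries k) := by
  rw [coe_sum_smul]
  refine Finset.sum_congr rfl fun j _ => ?_
  rw [algebraMap_laurentSeries_eq_single]
  rfl

/-- a solution of the generic system gives a certificate -/
theorem isCert_of_sol [IsFunctionField k E] [IsAlgClosed k] {D₀ H : Divisor k E} {n q m : ℕ}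
    {ru r ra rh : ℕ} {U : Fin ru → E} {Ua : Fin ra → E} {Uh : Fin rh → E}
    (hU : ∀ i, U i ∈ riemannRochSpace ((n * q) • H - D₀))
    (hUa : ∀ i, Ua i ∈ riemannRochSpace (m • H)) (hind : LinearIndependent k Ua)
    (hUh : ∀ i, Uh i ∈ riemannRochSpace ((n * m) • H))
    (v : Unk ru r ra rh → k)
    (h1 : ∀ i j, relG n (fun i => (U i : LaurentSeries k)) (fun i => (Ua i : LaurentSeries k))
      (fun i => (Uh i : LaurentSeries k)) v i j = 0)
    (h2 : ∀ j j', indG v j j' = 0) :
    ∃ s a h, IsCert D₀ H n q m U (r := r) s a h := by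
  classical
  refine ⟨∑ i, v (ux i) • U i, fun j => ∑ l, v (uy j l) • Ua l,
    fun i j => ∑ l, v (uw i j l) • Uh l, ?_, ?_, ?_, ?_, ?_⟩
  · exact Submodule.sum_mem _ fun i _ => Submodule.smul_mem _ _ (hU i)
  · exact fun j => Submodule.sum_mem _ fun i _ => Submodule.smul_mem _ _ (hUa i)
  · rw [Fintype.linearIndependent_iff]
    intro c hc j'
    have h3 : ∀ l, ∑ j, c j * v (uy j l) = 0 := by
      have h4 : ∑ l, (∑ j, c j * v (uy j l)) • Ua l = 0 := by
        rw [← hc]
        simp only [Finset.smul_sum, Finset.sum_smul, smul_smul]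
        exact Finset.sum_comm
      exact fun l => Fintype.linearIndependent_iff.1 hind _ h4 l
    have h5 : ∑ l, (∑ j, c j * v (uy j l)) * v (uz l j') = 0 :=
      Finset.sum_eq_zero fun l _ => by rw [h3 l, zero_mul]
    have h6 : ∑ l, (∑ j, c j * v (uy j l)) * v (uz l j') =
        ∑ j, c j * ∑ l, v (uy j l) * v (uz l j') := by
      simp only [Finset.sum_mul, Finset.mul_sum, mul_assoc]
      exact Finset.sum_comm
    have h7 : ∀ j, (∑ l, v (uy j l) * v (uz l j')) = if j = j' then 1 else 0 := fun j =>
      sub_eq_zero.1 (h2 j j')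
    rw [h6] at h5
    simp only [h7, mul_ite, mul_one, mul_zero, Finset.sum_ite_eq', Finset.mem_univ, if_true] at h5
    exact h5
  · exact fun i j => Submodule.sum_mem _ fun l _ => Submodule.smul_mem _ _ (hUh l)
  · intro i j
    apply Subtype.ext
    have h3 := h1 i j
    rw [relG, sub_eq_zero] at h3
    change ((∑ l, v (uw i j l) • Uh l : E) : LaurentSeries k) *
      ((∑ i, v (ux i) • U i : E) : LaurentSeries k) =
      (U i : LaurentSeries k) * ((∑ l, v (uy j l) • Ua l : E) : LaurentSeries k) ^ n
    rw [coe_sum_C, coe_sum_C, coe_sum_C]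
    exact h3

/-- a certificate gives a solution of the generic system -/
theorem sol_of_isCert [IsFunctionField k E] [IsAlgClosed k] {D₀ H : Divisor k E} {n q m : ℕ}
    {ru r ra rh : ℕ} {U : Fin ru → E} {Ua : Fin ra → E} {Uh : Fin rh → E}
    (hU : Submodule.span k (Set.range U) = riemannRochSpace ((n * q) • H - D₀))
    (hUa : Submodule.span k (Set.range Ua) = riemannRochSpace (m • H))
    (hind : LinearIndependent k Ua)
    (hUh : Submodule.span k (Set.range Uh) = riemannRochSpace ((n * m) • H))
    {s : E} {a : Fin r → E} {h : Fin ru → Fin r → E} (hc : IsCert D₀ H n q m U s a h) :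
    ∃ v : Unk ru r ra rh → k,
      (∀ i j, relG n (fun i => (U i : LaurentSeries k)) (fun i => (Ua i : LaurentSeries k))
        (fun i => (Uh i : LaurentSeries k)) v i j = 0) ∧
      ∀ j j', indG v j j' = 0 := by
  classical
  have hx : ∃ x : Fin ru → k, ∑ i, x i • U i = s := by
    have := hc.s_mem
    rw [← hU] at this
    exact (Submodule.mem_span_range_iff_exists_fun k).1 this
  have hy : ∀ j, ∃ y : Fin ra → k, ∑ i, y i • Ua i = a j := by
    intro j
    have := hc.a_mem j
    rw [← hUa] at this
    exact (Submodule.mem_span_range_iff_exists_fun k).1 this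
  have hw : ∀ i j, ∃ w : Fin rh → k, ∑ l, w l • Uh l = h i j := by
    intro i j
    have := hc.h_mem i j
    rw [← hUh] at this
    exact (Submodule.mem_span_range_iff_exists_fun k).1 this
  obtain ⟨x, hx⟩ := hx
  choose y hy using hy
  choose w hw using hw
  -- the left inverse
  let L : (Fin r → k) →ₗ[k] (Fin ra → k) :=
    { toFun := fun c l => ∑ j, c j * y j l
      map_add' := fun c c' => by
        funext l
        simp only [Pi.add_apply, add_mul, Finset.sum_add_distrib]
      map_smul' := fun t c => by
        funext l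
        simp only [Pi.smul_apply, smul_eq_mul, RingHom.id_apply, Finset.mul_sum, mul_assoc] }
  have hL : LinearMap.ker L = ⊥ := by
    rw [LinearMap.ker_eq_bot']
    intro c hc0
    have h3 : ∀ l, ∑ j, c j * y j l = 0 := fun l => congrFun hc0 l
    have h4 : ∑ j, c j • a j = 0 := by
      calc ∑ j, c j • a j = ∑ l, (∑ j, c j * y j l) • Ua l := by
            simp only [← hy, Finset.smul_sum, Finset.sum_smul, smul_smul]
            exact Finset.sum_comm
        _ = 0 := Finset.sum_eq_zero fun l _ => by rw [h3 l, zero_smul]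
    funext j
    exact Fintype.linearIndependent_iff.1 hc.a_ind c h4 j
  obtain ⟨g, hg⟩ := LinearMap.exists_leftInverse_of_injective L hL
  let z : Fin ra → Fin r → k := fun l j' => g (Pi.single l 1) j'
  have hz : ∀ j j', ∑ l, y j l * z l j' = if j = j' then 1 else 0 := by
    intro j j'
    have h3 : g (L (Pi.single j 1)) = Pi.single j 1 := LinearMap.congr_fun hg _
    have h4 : L (Pi.single j 1) = fun l => y j l := by
      funext l
      change ∑ j₁, (Pi.single j 1 : Fin r → k) j₁ * y j₁ l = _
      rw [Finset.sum_eq_single j]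
      · rw [Pi.single_eq_same, one_mul]
      · intro b _ hb
        rw [Pi.single_eq_of_ne hb, zero_mul]
      · intro h; exact absurd (Finset.mem_univ _) h
    rw [h4] at h3
    have h5 : (fun l => y j l) = ∑ l, y j l • (Pi.single l 1 : Fin ra → k) := by
      funext l
      simp [Finset.sum_apply, Pi.single_apply]
    rw [h5, map_sum] at h3
    have h6 := congrFun h3 j'
    rw [Finset.sum_apply] at h6
    simp only [map_smul, Pi.smul_apply, smul_eq_mul] at h6
    rw [h6, Pi.single_apply]
    simp only [eq_comm]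
  refine ⟨fun e => match e with
    | .inl i => x i
    | .inr (.inl (j, l)) => y j l
    | .inr (.inr (.inl ((i, j), l))) => w i j l
    | .inr (.inr (.inr (l, j))) => z l j, fun i j => ?_, fun j j' => ?_⟩
  · rw [relG, sub_eq_zero]
    have h3 := congrArg (fun f : E => (f : LaurentSeries k)) (hc.rel i j)
    simp only [← hw, ← hx, ← hy] at h3
    change ((∑ l, w i j l • Uh l : E) : LaurentSeries k) *
      ((∑ i, x i • U i : E) : LaurentSeries k) =
      (U i : LaurentSeries k) * ((∑ l, y j l • Ua l : E) : LaurentSeries k) ^ n at h3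
    rw [coe_sum_C, coe_sum_C, coe_sum_C] at h3
    exact h3
  · rw [indG, sub_eq_zero]
    exact hz j j'

end Cert

end Fermat.Agent.DivJ
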